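import Mathlib
import Fermat.Agent.LT.H556.A0

/-!
# Row LT, tower T1 (helper793, OFF-MAIN): the local components of `GL₂(𝔸_K)`

The projections of the adele ring to the completions as ring homomorphisms, the induced maps on
`GL₂`, the extensionality principle ("an adele is determined by its components") and the
construction of an element of `GL₂(𝔸_K)` from everywhere integral local components.
Definitions of `LT/H556/A0.lean` (`Adl`, `G`, `infComp`, `finComp`) are used, none is re-defined.
-/

set_option autoImplicit false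

open IsDedekindDomain NumberField
open Fermat.Agent.LT.H556.A0

noncomputable section

namespace Fermat.Agent.LT.T1.H793

variable {K : Type} [Field K] [NumberField K]

/-- The projection of the adele ring to the completion at the infinite place `w`. -/
def projInf793 (w : InfinitePlace K) : Adl K →+* w.Completion where
  toFun x := x.1 w
  map_one' := rfl
  map_mul' _ _ := rfl
  map_zero' := rfl
  map_add' _ _ := rfl

/-- The projection of the adele ring to the completion at the finite place `v`. -/
def projFin793 (v : HeightOneSpectrum (𝓞 K)) : Adl K →+* v.adicCompletion K where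
  toFun x := x.2 v
  map_one' := rfl
  map_mul' _ _ := rfl
  map_zero' := rfl
  map_add' _ _ := rfl

@[simp] lemma projInf793_apply (w : InfinitePlace K) (x : Adl K) : projInf793 w x = x.1 w := rfl

@[simp] lemma projFin793_apply (v : HeightOneSpectrum (𝓞 K)) (x : Adl K) :
    projFin793 v x = x.2 v := rfl

/-- An adele is determined by its components. -/
lemma adl_ext793 {x y : Adl K} (h1 : ∀ w : InfinitePlace K, projInf793 w x = projInf793 w y)
    (h2 : ∀ v : HeightOneSpectrum (𝓞 K), projFin793 v x = projFin793 v y) : x = y := by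
  refine Prod.ext (funext h1) ?_
  exact FiniteAdeleRing.ext (K := K) h2

/-- A matrix over the adeles is determined by its components. -/
lemma adlMatrix_ext793 {M N : Matrix (Fin 2) (Fin 2) (Adl K)}
    (h1 : ∀ w : InfinitePlace K, M.map (projInf793 w) = N.map (projInf793 w))
    (h2 : ∀ v : HeightOneSpectrum (𝓞 K), M.map (projFin793 v) = N.map (projFin793 v)) :
    M = N := by
  ext i j
  refine adl_ext793 (fun w => ?_) (fun v => ?_)
  · have := congrFun (congrFun (h1 w) i) j
    simpa [Matrix.map_apply] using this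
  · have := congrFun (congrFun (h2 v) i) j
    simpa [Matrix.map_apply] using this

/-- The component of `g ∈ GL₂(𝔸_K)` at the infinite place `w`. -/
def glInf793 (w : InfinitePlace K) : G K →* GL (Fin 2) w.Completion :=
  Matrix.GeneralLinearGroup.map (projInf793 w)

/-- The component of `g ∈ GL₂(𝔸_K)` at the finite place `v`. -/
def glFin793 (v : HeightOneSpectrum (𝓞 K)) : G K →* GL (Fin 2) (v.adicCompletion K) :=
  Matrix.GeneralLinearGroup.map (projFin793 v)

lemma glInf793_coe (w : InfinitePlace K) (g : G K) :
    ((glInf793 w g : GL (Fin 2) w.Completion) : Matrix (Fin 2) (Fin 2) w.Completion)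
      = (g : Matrix (Fin 2) (Fin 2) (Adl K)).map (projInf793 w) := rfl

lemma glFin793_coe (v : HeightOneSpectrum (𝓞 K)) (g : G K) :
    ((glFin793 v g : GL (Fin 2) (v.adicCompletion K)) :
        Matrix (Fin 2) (Fin 2) (v.adicCompletion K))
      = (g : Matrix (Fin 2) (Fin 2) (Adl K)).map (projFin793 v) := rfl

lemma finComp_eq793 (v : HeightOneSpectrum (𝓞 K)) (g : G K) :
    finComp v g = ((glFin793 v g : GL (Fin 2) (v.adicCompletion K)) :
        Matrix (Fin 2) (Fin 2) (v.adicCompletion K)) := rfl

lemma infComp_eq793 (w : InfinitePlace K) (g : G K) :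
    infComp w g = ((glInf793 w g : GL (Fin 2) w.Completion) :
        Matrix (Fin 2) (Fin 2) w.Completion).map
          (InfinitePlace.Completion.extensionEmbedding w) := rfl

/-- An element of `GL₂(𝔸_K)` is determined by its components. -/
lemma gl_ext793 {g h : G K} (h1 : ∀ w : InfinitePlace K, glInf793 w g = glInf793 w h)
    (h2 : ∀ v : HeightOneSpectrum (𝓞 K), glFin793 v g = glFin793 v h) : g = h := by
  apply Units.ext
  refine adlMatrix_ext793 (fun w => ?_) (fun v => ?_)
  · have := congrArg (fun x : GL (Fin 2) w.Completion =>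
      (x : Matrix (Fin 2) (Fin 2) w.Completion)) (h1 w)
    simpa [glInf793_coe] using this
  · have := congrArg (fun x : GL (Fin 2) (v.adicCompletion K) =>
      (x : Matrix (Fin 2) (Fin 2) (v.adicCompletion K))) (h2 v)
    simpa [glFin793_coe] using this

/-! ## Assembling an element from its components -/

/-- The adele with the components `a w` at the infinite places and the INTEGRAL components `c v`
at the finite places. -/
def adlMk793 (a : ∀ w : InfinitePlace K, w.Completion)
    (c : ∀ v : HeightOneSpectrum (𝓞 K), v.adicCompletion K)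
    (hc : ∀ v, c v ∈ v.adicCompletionIntegers K) : Adl K :=
  (a, ⟨c, Filter.Eventually.of_forall hc⟩)

@[simp] lemma projInf793_adlMk (a : ∀ w : InfinitePlace K, w.Completion)
    (c : ∀ v : HeightOneSpectrum (𝓞 K), v.adicCompletion K)
    (hc : ∀ v, c v ∈ v.adicCompletionIntegers K) (w : InfinitePlace K) :
    projInf793 w (adlMk793 a c hc) = a w := rfl

@[simp] lemma projFin793_adlMk (a : ∀ w : InfinitePlace K, w.Completion)
    (c : ∀ v : HeightOneSpectrum (𝓞 K), v.adicCompletion K)
    (hc : ∀ v, c v ∈ v.adicCompletionIntegers K) (v : HeightOneSpectrum (𝓞 K)) :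
    projFin793 v (adlMk793 a c hc) = c v := rfl

/-- The matrix over the adeles with the components `kw w` at the infinite places and the
integral components `kv v` at the finite places. -/
def adlMatrixMk793 (kw : ∀ w : InfinitePlace K, Matrix (Fin 2) (Fin 2) w.Completion)
    (kv : ∀ v : HeightOneSpectrum (𝓞 K), Matrix (Fin 2) (Fin 2) (v.adicCompletion K))
    (h1 : ∀ v i j, kv v i j ∈ v.adicCompletionIntegers K) : Matrix (Fin 2) (Fin 2) (Adl K) :=
  Matrix.of fun i j => adlMk793 (fun w => kw w i j) (fun v => kv v i j) (fun v => h1 v i j)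

lemma adlMatrixMk793_mapInf (kw : ∀ w : InfinitePlace K, Matrix (Fin 2) (Fin 2) w.Completion)
    (kv : ∀ v : HeightOneSpectrum (𝓞 K), Matrix (Fin 2) (Fin 2) (v.adicCompletion K))
    (h1 : ∀ v i j, kv v i j ∈ v.adicCompletionIntegers K) (w : InfinitePlace K) :
    (adlMatrixMk793 kw kv h1).map (projInf793 w) = kw w := by
  ext i j; rfl

lemma adlMatrixMk793_mapFin (kw : ∀ w : InfinitePlace K, Matrix (Fin 2) (Fin 2) w.Completion)
    (kv : ∀ v : HeightOneSpectrum (𝓞 K), Matrix (Fin 2) (Fin 2) (v.adicCompletion K))
    (h1 : ∀ v i j, kv v i j ∈ v.adicCompletionIntegers K) (v : HeightOneSpectrum (𝓞 K)) :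
    (adlMatrixMk793 kw kv h1).map (projFin793 v) = kv v := by
  ext i j; rfl

/-- The element of `GL₂(𝔸_K)` with the components `kw w` at the infinite places and the
components `kv v ∈ GL₂(𝒪_v)` at the finite places. -/
def glMk793 (kw : ∀ w : InfinitePlace K, GL (Fin 2) w.Completion)
    (kv : ∀ v : HeightOneSpectrum (𝓞 K), GL (Fin 2) (v.adicCompletion K))
    (h1 : ∀ v i j, (kv v : Matrix (Fin 2) (Fin 2) (v.adicCompletion K)) i j
      ∈ v.adicCompletionIntegers K)
    (h2 : ∀ v i j, (((kv v)⁻¹ : GL (Fin 2) (v.adicCompletion K)) :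
      Matrix (Fin 2) (Fin 2) (v.adicCompletion K)) i j ∈ v.adicCompletionIntegers K) : G K where
  val := adlMatrixMk793 (fun w => (kw w : Matrix (Fin 2) (Fin 2) w.Completion))
    (fun v => (kv v : Matrix (Fin 2) (Fin 2) (v.adicCompletion K))) h1
  inv := adlMatrixMk793
    (fun w => (((kw w)⁻¹ : GL (Fin 2) w.Completion) : Matrix (Fin 2) (Fin 2) w.Completion))
    (fun v => (((kv v)⁻¹ : GL (Fin 2) (v.adicCompletion K)) :
      Matrix (Fin 2) (Fin 2) (v.adicCompletion K))) h2
  val_inv := by
    refine adlMatrix_ext793 (fun w => ?_) (fun v => ?_)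
    · rw [Matrix.map_mul, Matrix.map_one _ (map_zero _) (map_one _), adlMatrixMk793_mapInf,
        adlMatrixMk793_mapInf, ← Units.val_mul, mul_inv_cancel, Units.val_one]
    · rw [Matrix.map_mul, Matrix.map_one _ (map_zero _) (map_one _), adlMatrixMk793_mapFin,
        adlMatrixMk793_mapFin, ← Units.val_mul, mul_inv_cancel, Units.val_one]
  inv_val := by
    refine adlMatrix_ext793 (fun w => ?_) (fun v => ?_)
    · rw [Matrix.map_mul, Matrix.map_one _ (map_zero _) (map_one _), adlMatrixMk793_mapInf,
        adlMatrixMk793_mapInf, ← Units.val_mul, inv_mul_cancel, Units.val_one]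
    · rw [Matrix.map_mul, Matrix.map_one _ (map_zero _) (map_one _), adlMatrixMk793_mapFin,
        adlMatrixMk793_mapFin, ← Units.val_mul, inv_mul_cancel, Units.val_one]

lemma glInf793_glMk (kw : ∀ w : InfinitePlace K, GL (Fin 2) w.Completion)
    (kv : ∀ v : HeightOneSpectrum (𝓞 K), GL (Fin 2) (v.adicCompletion K))
    (h1 : ∀ v i j, (kv v : Matrix (Fin 2) (Fin 2) (v.adicCompletion K)) i j
      ∈ v.adicCompletionIntegers K)
    (h2 : ∀ v i j, (((kv v)⁻¹ : GL (Fin 2) (v.adicCompletion K)) :
      Matrix (Fin 2) (Fin 2) (v.adicCompletion K)) i j ∈ v.adicCompletionIntegers K)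
    (w : InfinitePlace K) : glInf793 w (glMk793 kw kv h1 h2) = kw w := by
  apply Units.ext
  rw [glInf793_coe]
  exact adlMatrixMk793_mapInf _ _ _ w

lemma glFin793_glMk (kw : ∀ w : InfinitePlace K, GL (Fin 2) w.Completion)
    (kv : ∀ v : HeightOneSpectrum (𝓞 K), GL (Fin 2) (v.adicCompletion K))
    (h1 : ∀ v i j, (kv v : Matrix (Fin 2) (Fin 2) (v.adicCompletion K)) i j
      ∈ v.adicCompletionIntegers K)
    (h2 : ∀ v i j, (((kv v)⁻¹ : GL (Fin 2) (v.adicCompletion K)) :
      Matrix (Fin 2) (Fin 2) (v.adicCompletion K)) i j ∈ v.adicCompletionIntegers K)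
    (v : HeightOneSpectrum (𝓞 K)) : glFin793 v (glMk793 kw kv h1 h2) = kv v := by
  apply Units.ext
  rw [glFin793_coe]
  exact adlMatrixMk793_mapFin _ _ _ v

end Fermat.Agent.LT.T1.H793

end
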