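import Mathlib

/-!
# Row LT, tower T1 (helper793, OFF-MAIN): local decompositions of `GL₂`

Mathlib only.  Generic, definition-free statements about `GL (Fin 2) F`:

* `bruhat793`       : Bruhat decomposition over a field (`c ≠ 0 ⇒ g = n(x) w b`);
* `iwasawaVal793`   : Iwasawa decomposition `GL₂(F) = B(F) GL₂(O)` for a valuation subring `O`;
* `iwasawaReal793`  : `GL₂(ℝ) = B(ℝ) SO(2)`;
* `iwasawaComplex793` : `GL₂(ℂ) = B(ℂ) SU(2)`.
-/

set_option autoImplicit false

namespace Fermat.Agent.LT.T1.H793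

open Matrix

section Field

variable {F : Type*} [Field F]

/-- The elementary lower unipotent matrix as an element of `GL₂`. -/
def lowerUnip793 (t : F) : GL (Fin 2) F :=
  ⟨!![1, 0; t, 1], !![1, 0; -t, 1],
    by ext i j; fin_cases i <;> fin_cases j <;> simp [Matrix.mul_apply, Fin.sum_univ_two],
    by ext i j; fin_cases i <;> fin_cases j <;> simp [Matrix.mul_apply, Fin.sum_univ_two]⟩

/-- The matrix `[[0, 1], [1, s]]` as an element of `GL₂`. -/
def swapUnip793 (s : F) : GL (Fin 2) F :=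
  ⟨!![0, 1; 1, s], !![-s, 1; 1, 0],
    by ext i j; fin_cases i <;> fin_cases j <;> simp [Matrix.mul_apply, Fin.sum_univ_two],
    by ext i j; fin_cases i <;> fin_cases j <;> simp [Matrix.mul_apply, Fin.sum_univ_two]⟩

@[simp] lemma lowerUnip793_coe (t : F) :
    ((lowerUnip793 t : GL (Fin 2) F) : Matrix (Fin 2) (Fin 2) F) = !![1, 0; t, 1] := rfl

@[simp] lemma lowerUnip793_inv_coe (t : F) :
    (((lowerUnip793 t)⁻¹ : GL (Fin 2) F) : Matrix (Fin 2) (Fin 2) F) = !![1, 0; -t, 1] := rfl

@[simp] lemma swapUnip793_coe (s : F) :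
    ((swapUnip793 s : GL (Fin 2) F) : Matrix (Fin 2) (Fin 2) F) = !![0, 1; 1, s] := rfl

@[simp] lemma swapUnip793_inv_coe (s : F) :
    (((swapUnip793 s)⁻¹ : GL (Fin 2) F) : Matrix (Fin 2) (Fin 2) F) = !![-s, 1; 1, 0] := rfl

/-- The two entries of the bottom row of an invertible `2 × 2` matrix do not both vanish. -/
lemma bottom_ne_zero793 (g : GL (Fin 2) F) :
    (g : Matrix (Fin 2) (Fin 2) F) 1 0 ≠ 0 ∨ (g : Matrix (Fin 2) (Fin 2) F) 1 1 ≠ 0 := by
  by_contra h
  push Not at h
  have hdet : (g : Matrix (Fin 2) (Fin 2) F).det ≠ 0 := by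
    have := (Matrix.GeneralLinearGroup.det g).ne_zero
    simpa using this
  apply hdet
  rw [Matrix.det_fin_two, h.1, h.2]
  ring

/-- **Bruhat decomposition** of `GL₂` over a field, big cell: if the lower left entry of `g` does
not vanish then `g = n(x) · w · b` with `b` upper triangular. -/
theorem bruhat793 (g : GL (Fin 2) F) (hc : (g : Matrix (Fin 2) (Fin 2) F) 1 0 ≠ 0) :
    ∃ (x : F) (b : GL (Fin 2) F), (b : Matrix (Fin 2) (Fin 2) F) 1 0 = 0 ∧
      (g : Matrix (Fin 2) (Fin 2) F)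
        = !![1, x; 0, 1] * !![0, 1; 1, 0] * (b : Matrix (Fin 2) (Fin 2) F) := by
  set a := (g : Matrix (Fin 2) (Fin 2) F) 0 0 with ha
  set b0 := (g : Matrix (Fin 2) (Fin 2) F) 0 1 with hb0
  set c := (g : Matrix (Fin 2) (Fin 2) F) 1 0 with hc0
  set d := (g : Matrix (Fin 2) (Fin 2) F) 1 1 with hd
  have hdet : a * d - b0 * c ≠ 0 := by
    have := (Matrix.GeneralLinearGroup.det g).ne_zero
    have h2 : (g : Matrix (Fin 2) (Fin 2) F).det = a * d - b0 * c := by
      rw [Matrix.det_fin_two]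
    rw [← h2]; simpa using this
  have hB : (!![c, d; 0, b0 - a * d / c] : Matrix (Fin 2) (Fin 2) F).det ≠ 0 := by
    rw [Matrix.det_fin_two]
    simp only [Matrix.of_apply, Matrix.cons_val', Matrix.cons_val_zero, Matrix.cons_val_one,
      Matrix.cons_val_fin_one]
    intro h
    apply hdet
    have : c * (b0 - a * d / c) = b0 * c - a * d := by field_simp
    have h' : b0 * c - a * d = 0 := by
      rw [← this]; simpa using h
    linear_combination -h'
  refine ⟨a / c, Matrix.GeneralLinearGroup.mkOfDetNeZero _ hB, ?_, ?_⟩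
  · simp [Matrix.GeneralLinearGroup.mkOfDetNeZero]
  · ext i j
    fin_cases i <;> fin_cases j <;>
      simp [Matrix.GeneralLinearGroup.mkOfDetNeZero, Matrix.mul_apply, Fin.sum_univ_two,
        ← ha, ← hb0, ← hc0, ← hd]
    · field_simp
    · field_simp
      ring

/-- **Iwasawa decomposition** of `GL₂(F)` with respect to a valuation subring `O` of `F`:
`g = b · k` with `b` upper triangular and `k ∈ GL₂(O)`. -/
theorem iwasawaVal793 (O : ValuationSubring F) (g : GL (Fin 2) F) :
    ∃ b k : GL (Fin 2) F, g = b * k ∧ (b : Matrix (Fin 2) (Fin 2) F) 1 0 = 0 ∧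
      (∀ i j, (k : Matrix (Fin 2) (Fin 2) F) i j ∈ O) ∧
      (∀ i j, ((k⁻¹ : GL (Fin 2) F) : Matrix (Fin 2) (Fin 2) F) i j ∈ O) := by
  set c := (g : Matrix (Fin 2) (Fin 2) F) 1 0 with hc0
  set d := (g : Matrix (Fin 2) (Fin 2) F) 1 1 with hd
  by_cases hA : d ≠ 0 ∧ c / d ∈ O
  · -- `k = [[1,0],[t,1]]`, `t = c / d`
    obtain ⟨hd0, ht⟩ := hA
    refine ⟨g * (lowerUnip793 (c / d))⁻¹, lowerUnip793 (c / d), by group, ?_, ?_, ?_⟩
    · rw [Units.val_mul, lowerUnip793_inv_coe]
      simp only [Matrix.mul_apply, Fin.sum_univ_two, Matrix.of_apply, Matrix.cons_val',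
        Matrix.cons_val_zero, Matrix.cons_val_one, Matrix.cons_val_fin_one]
      rw [← hc0, ← hd]
      field_simp
      ring
    · intro i j
      rw [lowerUnip793_coe]
      fin_cases i <;> fin_cases j <;> simp [O.zero_mem, O.one_mem, ht]
    · intro i j
      rw [lowerUnip793_inv_coe]
      fin_cases i <;> fin_cases j <;> simp [O.zero_mem, O.one_mem, ht]
  · -- `k = [[0,1],[1,s]]`, `s = d / c`
    have hc : c ≠ 0 := by
      intro h
      rcases bottom_ne_zero793 g with h1 | h1
      · exact h1 (by rw [← hc0]; exact h)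
      · apply hA
        refine ⟨by rw [hd]; exact h1, ?_⟩
        rw [h, zero_div]; exact O.zero_mem
    have hs : d / c ∈ O := by
      by_cases hd0 : d = 0
      · rw [hd0, zero_div]; exact O.zero_mem
      · have h1 : c / d ∉ O := fun h => hA ⟨hd0, h⟩
        have h2 := O.mem_or_inv_mem (c / d)
        rcases h2 with h2 | h2
        · exact absurd h2 h1
        · rwa [inv_div] at h2
    refine ⟨g * (swapUnip793 (d / c))⁻¹, swapUnip793 (d / c), by group, ?_, ?_, ?_⟩
    · rw [Units.val_mul, swapUnip793_inv_coe]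
      simp only [Matrix.mul_apply, Fin.sum_univ_two, Matrix.of_apply, Matrix.cons_val',
        Matrix.cons_val_zero, Matrix.cons_val_one, Matrix.cons_val_fin_one]
      rw [← hc0, ← hd]
      field_simp
      ring
    · intro i j
      rw [swapUnip793_coe]
      fin_cases i <;> fin_cases j <;> simp [O.zero_mem, O.one_mem, hs]
    · intro i j
      rw [swapUnip793_inv_coe]
      fin_cases i <;> fin_cases j <;> simp [O.zero_mem, O.one_mem, hs]

end Field

/-! ## The archimedean places -/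

/-- **Iwasawa decomposition** of `GL₂(ℝ)`: `g = b · k` with `b` upper triangular and
`k ∈ SO(2)`. -/
theorem iwasawaReal793 (g : GL (Fin 2) ℝ) :
    ∃ b k : GL (Fin 2) ℝ, g = b * k ∧ (b : Matrix (Fin 2) (Fin 2) ℝ) 1 0 = 0 ∧
      (k : Matrix (Fin 2) (Fin 2) ℝ) * (k : Matrix (Fin 2) (Fin 2) ℝ).transpose = 1 ∧
      (k : Matrix (Fin 2) (Fin 2) ℝ).det = 1 := by
  set c := (g : Matrix (Fin 2) (Fin 2) ℝ) 1 0 with hc0
  set d := (g : Matrix (Fin 2) (Fin 2) ℝ) 1 1 with hd
  have hpos : 0 < c ^ 2 + d ^ 2 := by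
    rcases bottom_ne_zero793 g with h | h
    · have : 0 < c ^ 2 := by positivity
      nlinarith [sq_nonneg d]
    · have : 0 < d ^ 2 := by positivity
      nlinarith [sq_nonneg c]
  set r := Real.sqrt (c ^ 2 + d ^ 2) with hr
  have hr0 : 0 < r := Real.sqrt_pos.mpr hpos
  have hr2 : r ^ 2 = c ^ 2 + d ^ 2 := Real.sq_sqrt hpos.le
  have hrne : r ≠ 0 := hr0.ne'
  -- `k = (1/r) [[d, -c], [c, d]]`, `k⁻¹ = (1/r) [[d, c], [-c, d]]`
  let k : GL (Fin 2) ℝ :=
    ⟨!![d / r, -c / r; c / r, d / r], !![d / r, c / r; -c / r, d / r],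
      by
        ext i j
        fin_cases i <;> fin_cases j <;>
          simp [Matrix.mul_apply, Fin.sum_univ_two] <;> field_simp <;> nlinarith [hr2],
      by
        ext i j
        fin_cases i <;> fin_cases j <;>
          simp [Matrix.mul_apply, Fin.sum_univ_two] <;> field_simp <;> nlinarith [hr2]⟩
  have hk : (k : Matrix (Fin 2) (Fin 2) ℝ) = !![d / r, -c / r; c / r, d / r] := rfl
  have hkinv : ((k⁻¹ : GL (Fin 2) ℝ) : Matrix (Fin 2) (Fin 2) ℝ)
      = !![d / r, c / r; -c / r, d / r] := rfl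
  refine ⟨g * k⁻¹, k, by group, ?_, ?_, ?_⟩
  · rw [Units.val_mul, hkinv]
    simp only [Matrix.mul_apply, Fin.sum_univ_two, Matrix.of_apply, Matrix.cons_val',
      Matrix.cons_val_zero, Matrix.cons_val_one, Matrix.cons_val_fin_one]
    rw [← hc0, ← hd]
    field_simp
    ring
  · rw [hk]
    ext i j
    fin_cases i <;> fin_cases j <;>
      simp [Matrix.mul_apply, Fin.sum_univ_two, Matrix.transpose_apply] <;> field_simp <;>
      nlinarith [hr2]
  · rw [hk, Matrix.det_fin_two]
    simp only [Matrix.of_apply, Matrix.cons_val', Matrix.cons_val_zero, Matrix.cons_val_one,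
      Matrix.cons_val_fin_one]
    field_simp
    nlinarith [hr2]

/-- **Iwasawa decomposition** of `GL₂(ℂ)`: `g = b · k` with `b` upper triangular and
`k ∈ SU(2)`. -/
theorem iwasawaComplex793 (g : GL (Fin 2) ℂ) :
    ∃ b k : GL (Fin 2) ℂ, g = b * k ∧ (b : Matrix (Fin 2) (Fin 2) ℂ) 1 0 = 0 ∧
      (k : Matrix (Fin 2) (Fin 2) ℂ) * (k : Matrix (Fin 2) (Fin 2) ℂ).conjTranspose = 1 ∧
      (k : Matrix (Fin 2) (Fin 2) ℂ).det = 1 := by
  set c := (g : Matrix (Fin 2) (Fin 2) ℂ) 1 0 with hc0
  set d := (g : Matrix (Fin 2) (Fin 2) ℂ) 1 1 with hd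
  have hpos : 0 < Complex.normSq c + Complex.normSq d := by
    rcases bottom_ne_zero793 g with h | h
    · have : 0 < Complex.normSq c := Complex.normSq_pos.mpr h
      linarith [Complex.normSq_nonneg d]
    · have : 0 < Complex.normSq d := Complex.normSq_pos.mpr h
      linarith [Complex.normSq_nonneg c]
  set r := Real.sqrt (Complex.normSq c + Complex.normSq d) with hr
  have hr0 : 0 < r := Real.sqrt_pos.mpr hpos
  have hr2 : r ^ 2 = Complex.normSq c + Complex.normSq d := Real.sq_sqrt hpos.le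
  have hrne : (r : ℂ) ≠ 0 := by exact_mod_cast hr0.ne'
  have hcc : c * (starRingEnd ℂ) c = (Complex.normSq c : ℂ) := Complex.mul_conj c
  have hdd : d * (starRingEnd ℂ) d = (Complex.normSq d : ℂ) := Complex.mul_conj d
  have hsum : c * (starRingEnd ℂ) c + d * (starRingEnd ℂ) d = (r : ℂ) ^ 2 := by
    rw [hcc, hdd]; exact_mod_cast hr2.symm
  -- `k⁻¹ = (1/r) [[d, conj c], [-c, conj d]]`, `k = (1/r) [[conj d, -conj c], [c, d]]`
  let k : GL (Fin 2) ℂ :=
    ⟨!![(starRingEnd ℂ) d / r, -(starRingEnd ℂ) c / r; c / r, d / r],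
      !![d / r, (starRingEnd ℂ) c / r; -c / r, (starRingEnd ℂ) d / r],
      by
        ext i j
        fin_cases i <;> fin_cases j <;>
          simp [Matrix.mul_apply, Fin.sum_univ_two] <;> field_simp <;>
          first | ring1 | linear_combination hsum
      ,
      by
        ext i j
        fin_cases i <;> fin_cases j <;>
          simp [Matrix.mul_apply, Fin.sum_univ_two] <;> field_simp <;>
          first | ring1 | linear_combination hsum⟩
  have hk : (k : Matrix (Fin 2) (Fin 2) ℂ)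
      = !![(starRingEnd ℂ) d / r, -(starRingEnd ℂ) c / r; c / r, d / r] := rfl
  have hkinv : ((k⁻¹ : GL (Fin 2) ℂ) : Matrix (Fin 2) (Fin 2) ℂ)
      = !![d / r, (starRingEnd ℂ) c / r; -c / r, (starRingEnd ℂ) d / r] := rfl
  refine ⟨g * k⁻¹, k, by group, ?_, ?_, ?_⟩
  · rw [Units.val_mul, hkinv]
    simp only [Matrix.mul_apply, Fin.sum_univ_two, Matrix.of_apply, Matrix.cons_val',
      Matrix.cons_val_zero, Matrix.cons_val_one, Matrix.cons_val_fin_one]
    rw [← hc0, ← hd]
    field_simp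
    ring
  · rw [hk]
    ext i j
    fin_cases i <;> fin_cases j <;>
      simp [Matrix.mul_apply, Fin.sum_univ_two, Matrix.conjTranspose_apply] <;> field_simp <;>
      first | ring1 | linear_combination hsum
  · rw [hk, Matrix.det_fin_two]
    simp only [Matrix.of_apply, Matrix.cons_val', Matrix.cons_val_zero, Matrix.cons_val_one,
      Matrix.cons_val_fin_one]
    field_simp
    first | ring1 | linear_combination hsum

end Fermat.Agent.LT.T1.H793
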