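import Mathlib
import Fermat.Agent.LT.H556.A0
import Fermat.Agent.LT.T1.Spec
import Fermat.Agent.LT.T1.H793.AdeleProj

/-!
# Row LT, tower T1 (helper793, OFF-MAIN): interface Prop `HeightC`

`heightC793 K : AdNormC K → HeightC K` (Spec.lean of helper54): the height
`H(g) = ‖b₁₁‖ / ‖b₂₂‖` of `g = b k` is well defined, left invariant under `B(K) Z(𝔸_K)` and right
invariant under `K⁰`.  Only the algebraic parts of `AdNormC` are used (positivity,
multiplicativity, product formula).

By-products: `K⁰` is a subgroup (`isStdCompact_mul793`, `isStdCompact_inv793`,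
`isStdCompact_one793`); the diagonal entries of an upper triangular element of `K⁰` have adelic
norm `1` (`adNorm_diag_of_upper_std793`).
-/

set_option autoImplicit false

open IsDedekindDomain NumberField
open Fermat.Agent.LT.H556.A0
open Fermat.Agent.LT.T1

noncomputable section

namespace Fermat.Agent.LT.T1.H793

variable {K : Type} [Field K] [NumberField K]

/-! ## Components are multiplicative -/

lemma finComp_mul793 (v : HeightOneSpectrum (𝓞 K)) (g h : G K) :
    finComp v (g * h) = finComp v g * finComp v h := by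
  rw [finComp_eq793, finComp_eq793, finComp_eq793, map_mul, Units.val_mul]

lemma finComp_one793 (v : HeightOneSpectrum (𝓞 K)) : finComp v (1 : G K) = 1 := by
  rw [finComp_eq793, map_one, Units.val_one]

lemma infComp_mul793 (w : InfinitePlace K) (g h : G K) :
    infComp w (g * h) = infComp w g * infComp w h := by
  rw [infComp_eq793, infComp_eq793, infComp_eq793, map_mul, Units.val_mul, Matrix.map_mul]

lemma infComp_one793 (w : InfinitePlace K) : infComp w (1 : G K) = 1 := by
  rw [infComp_eq793, map_one, Units.val_one, Matrix.map_one _ (map_zero _) (map_one _)]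

lemma isIntegralAt_mul793 {v : HeightOneSpectrum (𝓞 K)} {g h : G K}
    (hg : IsIntegralAt v g) (hh : IsIntegralAt v h) : IsIntegralAt v (g * h) := by
  intro i j
  rw [finComp_mul793, Matrix.mul_apply]
  exact sum_mem (fun l _ => mul_mem (hg i l) (hh l j))

lemma isIntegralAt_one793 (v : HeightOneSpectrum (𝓞 K)) : IsIntegralAt v (1 : G K) := by
  intro i j
  rw [finComp_one793, Matrix.one_apply]
  split_ifs
  · exact one_mem _
  · exact zero_mem _

/-! ## `K⁰` is a subgroup -/

lemma isStdCompact_one793 : IsStdCompact K (1 : G K) := by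
  refine ⟨fun v => ⟨isIntegralAt_one793 v, by rw [inv_one]; exact isIntegralAt_one793 v⟩,
    fun w => ⟨?_, fun _ => ?_⟩⟩
  · rw [infComp_one793, Matrix.conjTranspose_one, mul_one]
  · rw [infComp_one793, Matrix.det_one]

lemma isStdCompact_mul793 {k k' : G K} (hk : IsStdCompact K k) (hk' : IsStdCompact K k') :
    IsStdCompact K (k * k') := by
  refine ⟨fun v => ⟨isIntegralAt_mul793 (hk.1 v).1 (hk'.1 v).1, ?_⟩, fun w => ⟨?_, ?_⟩⟩
  · rw [mul_inv_rev]; exact isIntegralAt_mul793 (hk'.1 v).2 (hk.1 v).2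
  · rw [infComp_mul793, Matrix.conjTranspose_mul]
    calc infComp w k * infComp w k' * ((infComp w k').conjTranspose * (infComp w k).conjTranspose)
        = infComp w k * (infComp w k' * (infComp w k').conjTranspose)
            * (infComp w k).conjTranspose := by simp only [Matrix.mul_assoc]
      _ = 1 := by rw [(hk'.2 w).1, Matrix.mul_one, (hk.2 w).1]
  · intro hw
    rw [infComp_mul793, Matrix.det_mul, (hk.2 w).2 hw, (hk'.2 w).2 hw, mul_one]

lemma isStdCompact_inv793 {k : G K} (hk : IsStdCompact K k) : IsStdCompact K k⁻¹ := by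
  refine ⟨fun v => ⟨(hk.1 v).2, by rw [inv_inv]; exact (hk.1 v).1⟩, fun w => ?_⟩
  have h1 : infComp w k * infComp w k⁻¹ = 1 := by
    rw [← infComp_mul793, mul_inv_cancel, infComp_one793]
  have hU := (hk.2 w).1
  have h3 : (infComp w k).conjTranspose * infComp w k = 1 := mul_eq_one_comm.mp hU
  have h2 : infComp w k⁻¹ = (infComp w k).conjTranspose := by
    calc infComp w k⁻¹ = ((infComp w k).conjTranspose * infComp w k) * infComp w k⁻¹ := by
          rw [h3, Matrix.one_mul]
      _ = (infComp w k).conjTranspose * (infComp w k * infComp w k⁻¹) := by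
          rw [Matrix.mul_assoc]
      _ = _ := by rw [h1, Matrix.mul_one]
  refine ⟨?_, fun hw => ?_⟩
  · rw [h2, Matrix.conjTranspose_conjTranspose]; exact h3
  · have := congrArg Matrix.det h1
    rw [Matrix.det_mul, (hk.2 w).2 hw, one_mul, Matrix.det_one] at this
    exact this

/-! ## Upper triangular elements -/

lemma det_upper793 {b : G K} (hb : IsUpper K b) :
    (b : Matrix (Fin 2) (Fin 2) (Adl K)).det
      = (b : Matrix (Fin 2) (Fin 2) (Adl K)) 0 0 * (b : Matrix (Fin 2) (Fin 2) (Adl K)) 1 1 := by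
  have h : (b : Matrix (Fin 2) (Fin 2) (Adl K)) 1 0 = 0 := hb
  rw [Matrix.det_fin_two, h]
  ring

lemma isUnit_diag793 {b : G K} (hb : IsUpper K b) :
    IsUnit ((b : Matrix (Fin 2) (Fin 2) (Adl K)) 0 0) ∧
      IsUnit ((b : Matrix (Fin 2) (Fin 2) (Adl K)) 1 1) := by
  have h : IsUnit (b : Matrix (Fin 2) (Fin 2) (Adl K)).det := Matrix.isUnits_det_units b
  rw [det_upper793 hb] at h
  exact ⟨isUnit_of_mul_isUnit_left h, isUnit_of_mul_isUnit_right h⟩

/-- If `b` and `b * u` are upper triangular then so is `u`. -/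
lemma isUpper_of_mul793 {b u : G K} (hb : IsUpper K b) (hbu : IsUpper K (b * u)) :
    IsUpper K u := by
  have h : (b : Matrix (Fin 2) (Fin 2) (Adl K)) 1 0 = 0 := hb
  have h' : ((b * u : G K) : Matrix (Fin 2) (Fin 2) (Adl K)) 1 0 = 0 := hbu
  rw [Units.val_mul, Matrix.mul_apply, Fin.sum_univ_two, h, zero_mul, zero_add] at h'
  exact (isUnit_diag793 hb).2.mul_right_eq_zero.mp h'

lemma isUpper_one793 : IsUpper K (1 : G K) := by
  show ((1 : G K) : Matrix (Fin 2) (Fin 2) (Adl K)) 1 0 = 0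
  simp

lemma isUpper_inv793 {u : G K} (hu : IsUpper K u) : IsUpper K u⁻¹ := by
  apply isUpper_of_mul793 hu
  rw [mul_inv_cancel]
  exact isUpper_one793

lemma isUpper_mul793 {b u : G K} (hb : IsUpper K b) (hu : IsUpper K u) : IsUpper K (b * u) := by
  have h : (b : Matrix (Fin 2) (Fin 2) (Adl K)) 1 0 = 0 := hb
  have h' : (u : Matrix (Fin 2) (Fin 2) (Adl K)) 1 0 = 0 := hu
  show ((b * u : G K) : Matrix (Fin 2) (Fin 2) (Adl K)) 1 0 = 0
  rw [Units.val_mul, Matrix.mul_apply, Fin.sum_univ_two, h, h', zero_mul, mul_zero, add_zero]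

lemma mul_apply_zero_zero793 {b u : G K} (hu : IsUpper K u) :
    ((b * u : G K) : Matrix (Fin 2) (Fin 2) (Adl K)) 0 0
      = (b : Matrix (Fin 2) (Fin 2) (Adl K)) 0 0 * (u : Matrix (Fin 2) (Fin 2) (Adl K)) 0 0 := by
  have h' : (u : Matrix (Fin 2) (Fin 2) (Adl K)) 1 0 = 0 := hu
  rw [Units.val_mul, Matrix.mul_apply, Fin.sum_univ_two, h', mul_zero, add_zero]

lemma mul_apply_one_one793 {b u : G K} (hb : IsUpper K b) :
    ((b * u : G K) : Matrix (Fin 2) (Fin 2) (Adl K)) 1 1
      = (b : Matrix (Fin 2) (Fin 2) (Adl K)) 1 1 * (u : Matrix (Fin 2) (Fin 2) (Adl K)) 1 1 := by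
  have h : (b : Matrix (Fin 2) (Fin 2) (Adl K)) 1 0 = 0 := hb
  rw [Units.val_mul, Matrix.mul_apply, Fin.sum_univ_two, h, zero_mul, zero_add]

/-! ## The adelic norm -/

lemma adNorm_eq_one_of793 {x : Adl K} (h1 : ∀ w : InfinitePlace K, ‖x.1 w‖ = 1)
    (h2 : ∀ v : HeightOneSpectrum (𝓞 K), ‖x.2 v‖ = 1) : adNorm K x = 1 := by
  unfold adNorm
  simp [h1, h2]

lemma adNorm_mul793 (h : AdNormC K) {x y : Adl K} (hx : IsUnit x) (hy : IsUnit y) :
    adNorm K (x * y) = adNorm K x * adNorm K y := by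
  obtain ⟨x, rfl⟩ := hx
  obtain ⟨y, rfl⟩ := hy
  have := h.2.1 x y
  rwa [Units.val_mul] at this

lemma adNorm_pos793 (h : AdNormC K) {x : Adl K} (hx : IsUnit x) : 0 < adNorm K x := by
  obtain ⟨x, rfl⟩ := hx
  exact h.1 x

lemma adNorm_algebraMap793 (h : AdNormC K) {ξ : K} (hξ : ξ ≠ 0) :
    adNorm K (algebraMap K (Adl K) ξ) = 1 :=
  h.2.2.1 (Units.mk0 ξ hξ)

/-- Norm of a finite component: integral with integral inverse implies norm one. -/
lemma norm_eq_one_of_mul793 (v : HeightOneSpectrum (𝓞 K)) {x y : v.adicCompletion K}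
    (hx : x ∈ v.adicCompletionIntegers K) (hy : y ∈ v.adicCompletionIntegers K)
    (hxy : x * y = 1) : ‖x‖ = 1 := by
  have h1 : ‖x‖ ≤ 1 := Valued.toNormedField.norm_le_one_iff.mpr
    ((HeightOneSpectrum.mem_adicCompletionIntegers (𝓞 K) K v).mp hx)
  have h2 : ‖y‖ ≤ 1 := Valued.toNormedField.norm_le_one_iff.mpr
    ((HeightOneSpectrum.mem_adicCompletionIntegers (𝓞 K) K v).mp hy)
  have h3 : ‖x‖ * ‖y‖ = 1 := by rw [← norm_mul, hxy, norm_one]
  have hx0 : 0 ≤ ‖x‖ := norm_nonneg x
  have hy0 : 0 ≤ ‖y‖ := norm_nonneg y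
  nlinarith

omit [NumberField K] in
lemma norm_extensionEmbedding793 (w : InfinitePlace K) (x : w.Completion) :
    ‖InfinitePlace.Completion.extensionEmbedding w x‖ = ‖x‖ := by
  have h := (InfinitePlace.Completion.isometry_extensionEmbedding w).norm_map_of_map_zero
    (map_zero _) x
  exact h

/-- **The diagonal entries of an upper triangular element of `K⁰` have adelic norm `1`.** -/
lemma adNorm_diag_of_upper_std793 {u : G K} (hu : IsUpper K u) (hk : IsStdCompact K u) :
    adNorm K ((u : Matrix (Fin 2) (Fin 2) (Adl K)) 0 0) = 1 ∧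
      adNorm K ((u : Matrix (Fin 2) (Fin 2) (Adl K)) 1 1) = 1 := by
  have hu' : IsUpper K u⁻¹ := isUpper_inv793 hu
  have h00 : (u : Matrix (Fin 2) (Fin 2) (Adl K)) 0 0
      * ((u⁻¹ : G K) : Matrix (Fin 2) (Fin 2) (Adl K)) 0 0 = 1 := by
    rw [← mul_apply_zero_zero793 hu', mul_inv_cancel]; simp
  have h11 : (u : Matrix (Fin 2) (Fin 2) (Adl K)) 1 1
      * ((u⁻¹ : G K) : Matrix (Fin 2) (Fin 2) (Adl K)) 1 1 = 1 := by
    rw [← mul_apply_one_one793 hu, mul_inv_cancel]; simp
  have h10 : (u : Matrix (Fin 2) (Fin 2) (Adl K)) 1 0 = 0 := hu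
  -- the archimedean places
  have hinf : ∀ w : InfinitePlace K,
      ‖((u : Matrix (Fin 2) (Fin 2) (Adl K)) 0 0).1 w‖ = 1 ∧
        ‖((u : Matrix (Fin 2) (Fin 2) (Adl K)) 1 1).1 w‖ = 1 := by
    intro w
    have hU := (hk.2 w).1
    have hU' : (infComp w u).conjTranspose * infComp w u = 1 := mul_eq_one_comm.mp hU
    have hz : infComp w u 1 0 = 0 := by
      show InfinitePlace.Completion.extensionEmbedding w
        (((u : Matrix (Fin 2) (Fin 2) (Adl K)) 1 0).1 w) = 0
      rw [h10]; exact map_zero _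
    have e11 := congrFun (congrFun hU 1) 1
    have e00 := congrFun (congrFun hU' 0) 0
    rw [Matrix.mul_apply, Fin.sum_univ_two] at e11 e00
    simp only [Matrix.conjTranspose_apply, hz, star_zero, mul_zero, zero_add,
      add_zero, Matrix.one_apply_eq] at e11 e00
    constructor
    · rw [← norm_extensionEmbedding793]
      have : ‖infComp w u 0 0‖ = 1 := by
        have h := congrArg norm e00
        rw [norm_mul, norm_star, norm_one] at h
        have h0 : 0 ≤ ‖infComp w u 0 0‖ := norm_nonneg _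
        nlinarith
      exact this
    · rw [← norm_extensionEmbedding793]
      have : ‖infComp w u 1 1‖ = 1 := by
        have h := congrArg norm e11
        rw [norm_mul, norm_star, norm_one] at h
        have h0 : 0 ≤ ‖infComp w u 1 1‖ := norm_nonneg _
        nlinarith
      exact this
  -- the finite places
  have hfin : ∀ v : HeightOneSpectrum (𝓞 K),
      ‖((u : Matrix (Fin 2) (Fin 2) (Adl K)) 0 0).2 v‖ = 1 ∧
        ‖((u : Matrix (Fin 2) (Fin 2) (Adl K)) 1 1).2 v‖ = 1 := by
    intro v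
    constructor
    · refine norm_eq_one_of_mul793 v ((hk.1 v).1 0 0) ((hk.1 v).2 0 0) ?_
      have := congrArg (projFin793 v) h00
      rwa [map_mul, map_one] at this
    · refine norm_eq_one_of_mul793 v ((hk.1 v).1 1 1) ((hk.1 v).2 1 1) ?_
      have := congrArg (projFin793 v) h11
      rwa [map_mul, map_one] at this
  exact ⟨adNorm_eq_one_of793 (fun w => (hinf w).1) (fun v => (hfin v).1),
    adNorm_eq_one_of793 (fun w => (hinf w).2) (fun v => (hfin v).2)⟩

/-! ## The interface Prop -/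

/-- **`HeightC`** from the algebraic parts of `AdNormC`. -/
theorem heightC793 (K : Type) [Field K] [NumberField K] (hN : AdNormC K) : HeightC K := by
  refine ⟨?_, ?_, ?_, ?_⟩
  · -- well defined
    rintro g t t' ⟨b, k, hb, hk, hg, ht⟩ ⟨b', k', hb', hk', hg', ht'⟩
    set u : G K := k * k'⁻¹ with hu
    have hbu : b' = b * u := by
      have : b * k = b' * k' := by rw [← hg, ← hg']
      rw [hu, ← mul_assoc, this, mul_assoc, mul_inv_cancel, mul_one]
    have hkU : IsStdCompact K u := isStdCompact_mul793 hk (isStdCompact_inv793 hk')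
    have hupU : IsUpper K u := isUpper_of_mul793 hb (hbu ▸ hb')
    obtain ⟨n0, n1⟩ := adNorm_diag_of_upper_std793 hupU hkU
    have hd := isUnit_diag793 hb
    have hdu := isUnit_diag793 hupU
    rw [ht, ht', hbu, mul_apply_zero_zero793 hupU, mul_apply_one_one793 hb,
      adNorm_mul793 hN hd.1 hdu.1, adNorm_mul793 hN hd.2 hdu.2, n0, n1, mul_one, mul_one]
  · -- left invariance under `B(K)`
    rintro β hβ g t ⟨b, k, hb, hk, hg, ht⟩
    have hβ0 : (β : Matrix (Fin 2) (Fin 2) K) 1 0 = 0 := hβ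
    have hup : IsUpper K (ratG K β) := by
      show ((ratG K β : G K) : Matrix (Fin 2) (Fin 2) (Adl K)) 1 0 = 0
      show algebraMap K (Adl K) ((β : Matrix (Fin 2) (Fin 2) K) 1 0) = 0
      rw [hβ0, map_zero]
    have hdet : (β : Matrix (Fin 2) (Fin 2) K).det ≠ 0 := by
      have := (Matrix.GeneralLinearGroup.det β).ne_zero
      simpa using this
    rw [Matrix.det_fin_two, hβ0, mul_zero, sub_zero] at hdet
    have h0 : (β : Matrix (Fin 2) (Fin 2) K) 0 0 ≠ 0 := left_ne_zero_of_mul hdet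
    have h1 : (β : Matrix (Fin 2) (Fin 2) K) 1 1 ≠ 0 := right_ne_zero_of_mul hdet
    have e0 : ((ratG K β : G K) : Matrix (Fin 2) (Fin 2) (Adl K)) 0 0
        = algebraMap K (Adl K) ((β : Matrix (Fin 2) (Fin 2) K) 0 0) := rfl
    have e1 : ((ratG K β : G K) : Matrix (Fin 2) (Fin 2) (Adl K)) 1 1
        = algebraMap K (Adl K) ((β : Matrix (Fin 2) (Fin 2) K) 1 1) := rfl
    have hdβ := isUnit_diag793 hup
    have hd := isUnit_diag793 hb
    refine ⟨ratG K β * b, k, isUpper_mul793 hup hb, hk, by rw [hg, mul_assoc], ?_⟩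
    rw [mul_apply_zero_zero793 hb, mul_apply_one_one793 hup, adNorm_mul793 hN hdβ.1 hd.1,
      adNorm_mul793 hN hdβ.2 hd.2, e0, e1, adNorm_algebraMap793 hN h0,
      adNorm_algebraMap793 hN h1, one_mul, one_mul]
    exact ht
  · -- left invariance under the centre
    rintro z ⟨c, hz⟩ g t ⟨b, k, hb, hk, hg, ht⟩
    have hup : IsUpper K z := by
      show (z : Matrix (Fin 2) (Fin 2) (Adl K)) 1 0 = 0
      rw [hz]; simp
    have e0 : (z : Matrix (Fin 2) (Fin 2) (Adl K)) 0 0 = c := by rw [hz]; simp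
    have e1 : (z : Matrix (Fin 2) (Fin 2) (Adl K)) 1 1 = c := by rw [hz]; simp
    have hdz := isUnit_diag793 hup
    have hd := isUnit_diag793 hb
    have hc : IsUnit c := e0 ▸ hdz.1
    have hcpos : 0 < adNorm K c := adNorm_pos793 hN hc
    refine ⟨z * b, k, isUpper_mul793 hup hb, hk, by rw [hg, mul_assoc], ?_⟩
    rw [mul_apply_zero_zero793 hb, mul_apply_one_one793 hup, e0, e1,
      adNorm_mul793 hN hc hd.1, adNorm_mul793 hN hc hd.2, mul_div_mul_left _ _ hcpos.ne']
    exact ht
  · -- right invariance under `K⁰`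
    rintro k₁ hk₁ g t ⟨b, k, hb, hk, hg, ht⟩
    exact ⟨b, k * k₁, hb, isStdCompact_mul793 hk hk₁, by rw [hg, mul_assoc], ht⟩

end Fermat.Agent.LT.T1.H793

end
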