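import Mathlib
import Fermat.Agent.LT.H556.A0
import Fermat.Agent.LT.T1.H793.Gl2Local
import Fermat.Agent.LT.T1.H793.AdeleProj

/-!
# Row LT, tower T1 (helper793, OFF-MAIN): the Iwasawa decomposition of `GL₂(𝔸_K)`

`iwasawaAdelic793`: every `g ∈ GL₂(𝔸_K)` is `b · k` with `b` upper triangular and `k` in the
standard maximal compact subgroup: `k_v ∈ GL₂(𝒪_v)` at every finite place, `k_w ∈ SO(2)` at the
real places and `k_w ∈ SU(2)` at the complex places (in the vocabulary of `LT/H556/A0.lean`:
`IsIntegralAt`, `infComp`).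
-/

set_option autoImplicit false

open IsDedekindDomain NumberField
open Fermat.Agent.LT.H556.A0

noncomputable section

namespace Fermat.Agent.LT.T1.H793

variable {K : Type} [Field K] [NumberField K]

/-- Local Iwasawa decomposition at a finite place. -/
lemma iwasawaFin793 (v : HeightOneSpectrum (𝓞 K)) (g : GL (Fin 2) (v.adicCompletion K)) :
    ∃ k : GL (Fin 2) (v.adicCompletion K),
      ((g * k⁻¹ : GL (Fin 2) (v.adicCompletion K)) :
        Matrix (Fin 2) (Fin 2) (v.adicCompletion K)) 1 0 = 0 ∧
      (∀ i j, (k : Matrix (Fin 2) (Fin 2) (v.adicCompletion K)) i j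
        ∈ v.adicCompletionIntegers K) ∧
      (∀ i j, ((k⁻¹ : GL (Fin 2) (v.adicCompletion K)) :
        Matrix (Fin 2) (Fin 2) (v.adicCompletion K)) i j ∈ v.adicCompletionIntegers K) := by
  obtain ⟨b, k, hg, hb, hk, hk'⟩ := iwasawaVal793 (v.adicCompletionIntegers K) g
  refine ⟨k, ?_, hk, hk'⟩
  have : g * k⁻¹ = b := by rw [hg]; group
  rw [this]; exact hb

/-- Transport of an element of `GL₂` along a ring isomorphism and back. -/
lemma map_symm_map793 {A B : Type*} [CommRing A] [CommRing B] (e : A ≃+* B)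
    (k : GL (Fin 2) B) :
    Matrix.GeneralLinearGroup.map (e : A →+* B)
      (Matrix.GeneralLinearGroup.map (e.symm : B →+* A) k) = k := by
  apply Units.ext
  ext i j
  simp [Matrix.GeneralLinearGroup.map]

/-- An entry of the image under `GL₂(e)`. -/
lemma map_coe_apply793 {A B : Type*} [CommRing A] [CommRing B] (e : A →+* B)
    (k : GL (Fin 2) A) (i j : Fin 2) :
    ((Matrix.GeneralLinearGroup.map e k : GL (Fin 2) B) : Matrix (Fin 2) (Fin 2) B) i j
      = e ((k : Matrix (Fin 2) (Fin 2) A) i j) := rfl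

/-- Local Iwasawa decomposition at an infinite place. -/
lemma iwasawaInf793 (w : InfinitePlace K) (g : GL (Fin 2) w.Completion) :
    ∃ k : GL (Fin 2) w.Completion,
      ((g * k⁻¹ : GL (Fin 2) w.Completion) : Matrix (Fin 2) (Fin 2) w.Completion) 1 0 = 0 ∧
      ((k : Matrix (Fin 2) (Fin 2) w.Completion).map
          (InfinitePlace.Completion.extensionEmbedding w))
        * ((k : Matrix (Fin 2) (Fin 2) w.Completion).map
          (InfinitePlace.Completion.extensionEmbedding w)).conjTranspose = 1 ∧
      (w.IsReal → ((k : Matrix (Fin 2) (Fin 2) w.Completion).map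
          (InfinitePlace.Completion.extensionEmbedding w)).det = 1) := by
  rcases w.isReal_or_isComplex with hw | hw
  · -- real place
    set e := InfinitePlace.Completion.ringEquivRealOfIsReal hw with he
    obtain ⟨b, kR, hg, hb, hk, hdet⟩ :=
      iwasawaReal793 (Matrix.GeneralLinearGroup.map (e : w.Completion →+* ℝ) g)
    set k : GL (Fin 2) w.Completion :=
      Matrix.GeneralLinearGroup.map (e.symm : ℝ →+* w.Completion) kR with hk0
    have hek : Matrix.GeneralLinearGroup.map (e : w.Completion →+* ℝ) k = kR :=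
      map_symm_map793 e kR
    have hmap : (k : Matrix (Fin 2) (Fin 2) w.Completion).map
        (InfinitePlace.Completion.extensionEmbedding w)
        = (kR : Matrix (Fin 2) (Fin 2) ℝ).map (algebraMap ℝ ℂ) := by
      ext i j
      rw [Matrix.map_apply, Matrix.map_apply, ← hek, map_coe_apply793]
      rw [← InfinitePlace.Completion.extensionEmbeddingOfIsReal_apply hw]
      rfl
    refine ⟨k, ?_, ?_, ?_⟩
    · have h1 : Matrix.GeneralLinearGroup.map (e : w.Completion →+* ℝ) (g * k⁻¹) = b := by
        rw [map_mul, map_inv, hek, hg]; group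
      have h2 := map_coe_apply793 (e : w.Completion →+* ℝ) (g * k⁻¹) 1 0
      rw [h1, hb] at h2
      have h3 : e (((g * k⁻¹ : GL (Fin 2) w.Completion) :
          Matrix (Fin 2) (Fin 2) w.Completion) 1 0) = 0 := h2.symm
      exact (map_eq_zero_iff e e.injective).mp h3
    · rw [hmap]
      have : ((kR : Matrix (Fin 2) (Fin 2) ℝ).map (algebraMap ℝ ℂ)).conjTranspose
          = ((kR : Matrix (Fin 2) (Fin 2) ℝ).transpose).map (algebraMap ℝ ℂ) := by
        ext i j
        simp [Matrix.conjTranspose_apply, Matrix.map_apply, Matrix.transpose_apply]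
      rw [this, ← Matrix.map_mul (f := algebraMap ℝ ℂ), hk,
        Matrix.map_one _ (map_zero _) (map_one _)]
    · intro _
      rw [hmap]
      have := (RingHom.map_det (algebraMap ℝ ℂ) (kR : Matrix (Fin 2) (Fin 2) ℝ)).symm
      rw [RingHom.mapMatrix_apply] at this
      rw [this, hdet, map_one]
  · -- complex place
    set e := InfinitePlace.Completion.ringEquivComplexOfIsComplex hw with he
    obtain ⟨b, kC, hg, hb, hk, hdet⟩ :=
      iwasawaComplex793 (Matrix.GeneralLinearGroup.map (e : w.Completion →+* ℂ) g)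
    set k : GL (Fin 2) w.Completion :=
      Matrix.GeneralLinearGroup.map (e.symm : ℂ →+* w.Completion) kC with hk0
    have hek : Matrix.GeneralLinearGroup.map (e : w.Completion →+* ℂ) k = kC :=
      map_symm_map793 e kC
    have hmap : (k : Matrix (Fin 2) (Fin 2) w.Completion).map
        (InfinitePlace.Completion.extensionEmbedding w)
        = (kC : Matrix (Fin 2) (Fin 2) ℂ) := by
      ext i j
      rw [Matrix.map_apply, ← hek, map_coe_apply793]
      rfl
    refine ⟨k, ?_, ?_, ?_⟩
    · have h1 : Matrix.GeneralLinearGroup.map (e : w.Completion →+* ℂ) (g * k⁻¹) = b := by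
        rw [map_mul, map_inv, hek, hg]; group
      have h2 := map_coe_apply793 (e : w.Completion →+* ℂ) (g * k⁻¹) 1 0
      rw [h1, hb] at h2
      have h3 : e (((g * k⁻¹ : GL (Fin 2) w.Completion) :
          Matrix (Fin 2) (Fin 2) w.Completion) 1 0) = 0 := h2.symm
      exact (map_eq_zero_iff e e.injective).mp h3
    · rw [hmap]; exact hk
    · intro _
      rw [hmap]; exact hdet

/-- **The Iwasawa decomposition of `GL₂(𝔸_K)`**: `g = b · k`, `b` upper triangular, `k` in the
standard maximal compact subgroup. -/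
theorem iwasawaAdelic793 (g : G K) :
    ∃ b k : G K, g = b * k ∧ (b : Matrix (Fin 2) (Fin 2) (Adl K)) 1 0 = 0 ∧
      (∀ v : HeightOneSpectrum (𝓞 K), IsIntegralAt v k ∧ IsIntegralAt v k⁻¹) ∧
      (∀ w : InfinitePlace K,
        infComp w k * (infComp w k).conjTranspose = 1 ∧
          (w.IsReal → (infComp w k).det = 1)) := by
  choose kw hkw1 hkw2 hkw3 using fun w : InfinitePlace K => iwasawaInf793 w (glInf793 w g)
  choose kv hkv1 hkv2 hkv3 using
    fun v : HeightOneSpectrum (𝓞 K) => iwasawaFin793 v (glFin793 v g)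
  set k : G K := glMk793 kw kv hkv2 hkv3 with hk
  refine ⟨g * k⁻¹, k, by group, ?_, ?_, ?_⟩
  · refine adl_ext793 (fun w => ?_) (fun v => ?_)
    · have h1 : glInf793 w (g * k⁻¹) = glInf793 w g * (kw w)⁻¹ := by
        rw [map_mul, map_inv, hk, glInf793_glMk]
      have h2 : projInf793 w (((g * k⁻¹ : G K) : Matrix (Fin 2) (Fin 2) (Adl K)) 1 0)
          = ((glInf793 w (g * k⁻¹) : GL (Fin 2) w.Completion) :
              Matrix (Fin 2) (Fin 2) w.Completion) 1 0 := rfl
      rw [h2, h1, hkw1 w, map_zero]
    · have h1 : glFin793 v (g * k⁻¹) = glFin793 v g * (kv v)⁻¹ := by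
        rw [map_mul, map_inv, hk, glFin793_glMk]
      have h2 : projFin793 v (((g * k⁻¹ : G K) : Matrix (Fin 2) (Fin 2) (Adl K)) 1 0)
          = ((glFin793 v (g * k⁻¹) : GL (Fin 2) (v.adicCompletion K)) :
              Matrix (Fin 2) (Fin 2) (v.adicCompletion K)) 1 0 := rfl
      rw [h2, h1, hkv1 v, map_zero]
  · intro v
    constructor
    · intro i j
      rw [finComp_eq793, hk, glFin793_glMk]
      exact hkv2 v i j
    · intro i j
      rw [finComp_eq793, map_inv, hk, glFin793_glMk]
      exact hkv3 v i j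
  · intro w
    rw [infComp_eq793, hk, glInf793_glMk]
    exact ⟨hkw2 w, hkw3 w⟩

end Fermat.Agent.LT.T1.H793

end
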