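import Mathlib
import Fermat.Agent.LT.H556.A0
import Fermat.Agent.LT.T1.Spec
import Fermat.Agent.LT.T1.H793.IwasawaAdelic

/-!
# Row LT, tower T1 (helper793, OFF-MAIN): interface Prop `IwasawaC`

`iwasawaC793 K : Fermat.Agent.LT.T1.IwasawaC K`, UNCONDITIONAL, for every number field `K`
(Spec.lean of helper54, v0 @424fdf719).
-/

set_option autoImplicit false

open IsDedekindDomain NumberField
open Fermat.Agent.LT.H556.A0

namespace Fermat.Agent.LT.T1.H793

/-- **`IwasawaC`**: `GL₂(𝔸_K) = B(𝔸_K) · K⁰`. -/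
theorem iwasawaC793 (K : Type) [Field K] [NumberField K] : Fermat.Agent.LT.T1.IwasawaC K := by
  intro g
  obtain ⟨b, k, hg, hb, hfin, hinf⟩ := iwasawaAdelic793 g
  exact ⟨b, k, hb, ⟨hfin, hinf⟩, hg⟩

end Fermat.Agent.LT.T1.H793
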