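import Mathlib
import Fermat.Agent.LT.H556.A0
import Fermat.Agent.LT.T1.Spec
import Fermat.Agent.LT.T1.H793.AdeleProj
import Fermat.Agent.LT.T1.H793.Height

/-!
# Row LT, tower T1 (helper793, OFF-MAIN): interface Prop `SiegelSepC`

`siegelSepC793 K : AdNormC K → SiegelSepC K` (Spec.lean of helper54): for `γ ∈ GL₂(K)` not upper
triangular, `H(g) · H(γ g) ≤ 1`.

Proof.  Let `g = b k`, `γ g = b' k'`, so `γ b = b' u` with `u = k' k⁻¹ ∈ K⁰`.  The lower left
entries give `c · b₁₁ = b'₂₂ · u₂₁` (`c = γ₂₁ ∈ Kˣ`), hence `‖b₁₁‖ ≤ ‖b'₂₂‖` because every local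
norm of an entry of an element of `K⁰` is `≤ 1`; the determinants give
`‖b₁₁‖ ‖b₂₂‖ = ‖b'₁₁‖ ‖b'₂₂‖` because `‖det u‖ = 1` and by the product formula.  No measure theory.
-/

set_option autoImplicit false

open IsDedekindDomain NumberField
open Fermat.Agent.LT.H556.A0
open Fermat.Agent.LT.T1

noncomputable section

namespace Fermat.Agent.LT.T1.H793

variable {K : Type} [Field K] [NumberField K]

/-- The adelic norm is `≤ 1` as soon as every local norm is. -/
lemma adNorm_le_one_of793 {x : Adl K} (h1 : ∀ w : InfinitePlace K, ‖x.1 w‖ ≤ 1)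
    (h2 : ∀ v : HeightOneSpectrum (𝓞 K), ‖x.2 v‖ ≤ 1) : adNorm K x ≤ 1 := by
  unfold adNorm
  have hA : ∏ w : InfinitePlace K, ‖x.1 w‖ ^ w.mult ≤ 1 :=
    Finset.prod_le_one (fun w _ => by positivity)
      (fun w _ => pow_le_one₀ (norm_nonneg _) (h1 w))
  have hA0 : 0 ≤ ∏ w : InfinitePlace K, ‖x.1 w‖ ^ w.mult :=
    Finset.prod_nonneg (fun w _ => by positivity)
  have hB0 : 0 ≤ ∏ᶠ v : HeightOneSpectrum (𝓞 K), ‖x.2 v‖ :=
    finprod_nonneg (fun v => norm_nonneg _)
  have hB : ∏ᶠ v : HeightOneSpectrum (𝓞 K), ‖x.2 v‖ ≤ 1 := by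
    by_cases hfin : (Function.mulSupport fun v : HeightOneSpectrum (𝓞 K) => ‖x.2 v‖).Finite
    · rw [finprod_eq_prod _ hfin]
      exact Finset.prod_le_one (fun v _ => norm_nonneg _) (fun v _ => h2 v)
    · rw [finprod_of_infinite_mulSupport hfin]
  calc (∏ w : InfinitePlace K, ‖x.1 w‖ ^ w.mult) * ∏ᶠ v : HeightOneSpectrum (𝓞 K), ‖x.2 v‖
      ≤ 1 * 1 := mul_le_mul hA hB hB0 zero_le_one
    _ = 1 := one_mul 1

/-- Every local norm of an entry of an element of `K⁰` is `≤ 1`. -/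
lemma adNorm_entry_le_one793 {u : G K} (hk : IsStdCompact K u) (i j : Fin 2) :
    adNorm K ((u : Matrix (Fin 2) (Fin 2) (Adl K)) i j) ≤ 1 := by
  refine adNorm_le_one_of793 (fun w => ?_) (fun v => ?_)
  · rw [← norm_extensionEmbedding793]
    have hU := (hk.2 w).1
    have e := congrFun (congrFun hU i) i
    rw [Matrix.mul_apply, Fin.sum_univ_two] at e
    simp only [Matrix.conjTranspose_apply, Matrix.one_apply_eq] at e
    have h0 : ∀ l : Fin 2, infComp w u i l * star (infComp w u i l)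
        = ((‖infComp w u i l‖ ^ 2 : ℝ) : ℂ) := by
      intro l
      rw [Complex.star_def, Complex.mul_conj, Complex.normSq_eq_norm_sq]
    rw [h0 0, h0 1] at e
    have e' : ‖infComp w u i 0‖ ^ 2 + ‖infComp w u i 1‖ ^ 2 = 1 := by exact_mod_cast e
    have hij : ‖infComp w u i j‖ ^ 2 ≤ 1 := by
      fin_cases j
      · have := sq_nonneg ‖infComp w u i 1‖
        simp only [Fin.zero_eta]
        linarith
      · have := sq_nonneg ‖infComp w u i 0‖
        simp only [Fin.mk_one]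
        linarith
    have hn : 0 ≤ ‖infComp w u i j‖ := norm_nonneg _
    show ‖infComp w u i j‖ ≤ 1
    nlinarith
  · exact Valued.toNormedField.norm_le_one_iff.mpr
      ((HeightOneSpectrum.mem_adicCompletionIntegers (𝓞 K) K v).mp ((hk.1 v).1 i j))

/-- The determinant of an element of `K⁰` has adelic norm `1`. -/
lemma adNorm_det_std793 {u : G K} (hk : IsStdCompact K u) :
    adNorm K (u : Matrix (Fin 2) (Fin 2) (Adl K)).det = 1 := by
  have hdet : (u : Matrix (Fin 2) (Fin 2) (Adl K)).det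
      * ((u⁻¹ : G K) : Matrix (Fin 2) (Fin 2) (Adl K)).det = 1 := by
    rw [← Matrix.det_mul, ← Units.val_mul, mul_inv_cancel, Units.val_one, Matrix.det_one]
  refine adNorm_eq_one_of793 (fun w => ?_) (fun v => ?_)
  · rw [← norm_extensionEmbedding793]
    have h1 : InfinitePlace.Completion.extensionEmbedding w
        ((u : Matrix (Fin 2) (Fin 2) (Adl K)).det.1 w) = (infComp w u).det := by
      rw [Matrix.det_fin_two, Matrix.det_fin_two]
      simp only [infComp]
      show InfinitePlace.Completion.extensionEmbedding w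
        (projInf793 w ((u : Matrix (Fin 2) (Fin 2) (Adl K)) 0 0
            * (u : Matrix (Fin 2) (Fin 2) (Adl K)) 1 1
          - (u : Matrix (Fin 2) (Fin 2) (Adl K)) 0 1
            * (u : Matrix (Fin 2) (Fin 2) (Adl K)) 1 0)) = _
      simp only [map_sub, map_mul, projInf793_apply]
    rw [h1]
    have hU := congrArg Matrix.det (hk.2 w).1
    rw [Matrix.det_mul, Matrix.det_conjTranspose, Matrix.det_one] at hU
    have h := congrArg norm hU
    rw [norm_mul, norm_star, norm_one] at h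
    have h0 : 0 ≤ ‖(infComp w u).det‖ := norm_nonneg _
    nlinarith
  · have hint : ∀ {g : G K}, IsIntegralAt v g →
        (g : Matrix (Fin 2) (Fin 2) (Adl K)).det.2 v ∈ v.adicCompletionIntegers K := by
      intro g hg
      have : (g : Matrix (Fin 2) (Fin 2) (Adl K)).det.2 v
          = finComp v g 0 0 * finComp v g 1 1 - finComp v g 0 1 * finComp v g 1 0 := by
        rw [Matrix.det_fin_two]
        rfl
      rw [this]
      exact sub_mem (mul_mem (hg 0 0) (hg 1 1)) (mul_mem (hg 0 1) (hg 1 0))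
    refine norm_eq_one_of_mul793 v (hint (hk.1 v).1) (hint (hk.1 v).2) ?_
    have := congrArg (projFin793 v) hdet
    rwa [map_mul, map_one] at this

/-- **`SiegelSepC`** from the algebraic parts of `AdNormC`. -/
theorem siegelSepC793 (K : Type) [Field K] [NumberField K] (hN : AdNormC K) :
    SiegelSepC K := by
  rintro γ hγ g t t' ⟨b, k, hb, hk, hg, ht⟩ ⟨b', k', hb', hk', hg', ht'⟩
  have hc : (γ : Matrix (Fin 2) (Fin 2) K) 1 0 ≠ 0 := hγ
  set u : G K := k' * k⁻¹ with hu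
  have hkU : IsStdCompact K u := isStdCompact_mul793 hk' (isStdCompact_inv793 hk)
  -- `γ b = b' u`
  have hmain : ratG K γ * b = b' * u := by
    have h1 : ratG K γ * (b * k) = b' * k' := by rw [← hg, ← hg']
    calc ratG K γ * b = ratG K γ * (b * k) * k⁻¹ := by group
      _ = b' * k' * k⁻¹ := by rw [h1]
      _ = b' * u := by rw [hu, mul_assoc]
  have hb10 : (b : Matrix (Fin 2) (Fin 2) (Adl K)) 1 0 = 0 := hb
  have hb'10 : (b' : Matrix (Fin 2) (Fin 2) (Adl K)) 1 0 = 0 := hb'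
  have hd := isUnit_diag793 hb
  have hd' := isUnit_diag793 hb'
  -- lower left entries
  have hentry : algebraMap K (Adl K) ((γ : Matrix (Fin 2) (Fin 2) K) 1 0)
      * (b : Matrix (Fin 2) (Fin 2) (Adl K)) 0 0
      = (b' : Matrix (Fin 2) (Fin 2) (Adl K)) 1 1 * (u : Matrix (Fin 2) (Fin 2) (Adl K)) 1 0 := by
    have h := congrArg (fun x : G K => (x : Matrix (Fin 2) (Fin 2) (Adl K)) 1 0) hmain
    simp only [Units.val_mul, Matrix.mul_apply, Fin.sum_univ_two, hb10, hb'10, mul_zero,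
      zero_mul, add_zero, zero_add] at h
    exact h
  have hcu : IsUnit (algebraMap K (Adl K) ((γ : Matrix (Fin 2) (Fin 2) K) 1 0)) :=
    (IsUnit.mk0 _ hc).map (algebraMap K (Adl K))
  have hu10 : IsUnit ((u : Matrix (Fin 2) (Fin 2) (Adl K)) 1 0) := by
    have h : IsUnit ((b' : Matrix (Fin 2) (Fin 2) (Adl K)) 1 1
        * (u : Matrix (Fin 2) (Fin 2) (Adl K)) 1 0) := hentry ▸ hcu.mul hd.1
    exact isUnit_of_mul_isUnit_right h
  have hA : 0 < adNorm K ((b : Matrix (Fin 2) (Fin 2) (Adl K)) 0 0) := adNorm_pos793 hN hd.1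
  have hB : 0 < adNorm K ((b : Matrix (Fin 2) (Fin 2) (Adl K)) 1 1) := adNorm_pos793 hN hd.2
  have hA' : 0 < adNorm K ((b' : Matrix (Fin 2) (Fin 2) (Adl K)) 0 0) :=
    adNorm_pos793 hN hd'.1
  have hB' : 0 < adNorm K ((b' : Matrix (Fin 2) (Fin 2) (Adl K)) 1 1) :=
    adNorm_pos793 hN hd'.2
  -- (1) `‖b₁₁‖ ≤ ‖b'₂₂‖`
  have h1 : adNorm K ((b : Matrix (Fin 2) (Fin 2) (Adl K)) 0 0)
      ≤ adNorm K ((b' : Matrix (Fin 2) (Fin 2) (Adl K)) 1 1) := by
    have e := congrArg (adNorm K) hentry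
    rw [adNorm_mul793 hN hcu hd.1, adNorm_algebraMap793 hN hc, one_mul,
      adNorm_mul793 hN hd'.2 hu10] at e
    rw [e]
    calc adNorm K ((b' : Matrix (Fin 2) (Fin 2) (Adl K)) 1 1)
          * adNorm K ((u : Matrix (Fin 2) (Fin 2) (Adl K)) 1 0)
        ≤ adNorm K ((b' : Matrix (Fin 2) (Fin 2) (Adl K)) 1 1) * 1 :=
          mul_le_mul_of_nonneg_left (adNorm_entry_le_one793 hkU 1 0) hB'.le
      _ = _ := mul_one _
  -- (2) determinants
  have h2 : adNorm K ((b : Matrix (Fin 2) (Fin 2) (Adl K)) 0 0)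
        * adNorm K ((b : Matrix (Fin 2) (Fin 2) (Adl K)) 1 1)
      = adNorm K ((b' : Matrix (Fin 2) (Fin 2) (Adl K)) 0 0)
        * adNorm K ((b' : Matrix (Fin 2) (Fin 2) (Adl K)) 1 1) := by
    have hdetγ : ((ratG K γ : G K) : Matrix (Fin 2) (Fin 2) (Adl K)).det
        = algebraMap K (Adl K) (γ : Matrix (Fin 2) (Fin 2) K).det := by
      rw [RingHom.map_det]
      rfl
    have hdγ0 : (γ : Matrix (Fin 2) (Fin 2) K).det ≠ 0 := by
      have := (Matrix.GeneralLinearGroup.det γ).ne_zero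
      simpa using this
    have e := congrArg (fun x : G K => (x : Matrix (Fin 2) (Fin 2) (Adl K)).det) hmain
    simp only [Units.val_mul, Matrix.det_mul] at e
    rw [hdetγ, det_upper793 hb, det_upper793 hb'] at e
    have e' := congrArg (adNorm K) e
    have hdu : IsUnit (u : Matrix (Fin 2) (Fin 2) (Adl K)).det := Matrix.isUnits_det_units u
    rw [adNorm_mul793 hN ((IsUnit.mk0 _ hdγ0).map (algebraMap K (Adl K))) (hd.1.mul hd.2),
      adNorm_algebraMap793 hN hdγ0, one_mul, adNorm_mul793 hN hd.1 hd.2,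
      adNorm_mul793 hN (hd'.1.mul hd'.2) hdu, adNorm_det_std793 hkU, mul_one,
      adNorm_mul793 hN hd'.1 hd'.2] at e'
    exact e'
  -- conclusion
  rw [ht, ht', div_mul_div_comm, div_le_one (mul_pos hB hB')]
  calc adNorm K ((b : Matrix (Fin 2) (Fin 2) (Adl K)) 0 0)
        * adNorm K ((b' : Matrix (Fin 2) (Fin 2) (Adl K)) 0 0)
      ≤ adNorm K ((b' : Matrix (Fin 2) (Fin 2) (Adl K)) 1 1)
        * adNorm K ((b' : Matrix (Fin 2) (Fin 2) (Adl K)) 0 0) :=
        mul_le_mul_of_nonneg_right h1 hA'.le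
    _ = adNorm K ((b : Matrix (Fin 2) (Fin 2) (Adl K)) 0 0)
        * adNorm K ((b : Matrix (Fin 2) (Fin 2) (Adl K)) 1 1) := by rw [h2, mul_comm]
    _ ≤ adNorm K ((b' : Matrix (Fin 2) (Fin 2) (Adl K)) 1 1)
        * adNorm K ((b : Matrix (Fin 2) (Fin 2) (Adl K)) 1 1) :=
        mul_le_mul_of_nonneg_right h1 hB.le
    _ = _ := mul_comm _ _

end Fermat.Agent.LT.T1.H793

end
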