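import Mathlib
import Fermat.Agent.LT.H556.A0
import Fermat.Agent.LT.T1.Spec
import Fermat.Agent.LT.T1.H793.Gl2Local
import Fermat.Agent.LT.T1.H793.Iwasawa
import Fermat.Agent.LT.T1.H793.Height
import Fermat.Agent.LT.T1.H793.SiegelSep

/-!
# Row LT, tower T1 (helper793, OFF-MAIN): sub-leaves of `T1/Spec.lean` v1 (helper54@675fbadd3)

VERBATIM against the sub-leaf Props of the Spec:

* `leafIwasawaFin793 K  : LeafIwasawaFin K`   (T1.10)
* `leafIwasawaInf793    : LeafIwasawaInf`     (T1.11)
* `leafIwasawaGlue793 K : LeafIwasawaGlue K`  (T1.12)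
* `leafHeight793 K      : LeafHeight K`       (T1.13)
* `leafSiegelSep793 K   : LeafSiegelSep K`    (T1.15)
-/

set_option autoImplicit false

open IsDedekindDomain NumberField
open Fermat.Agent.LT.H556.A0
open Fermat.Agent.LT.T1

noncomputable section

namespace Fermat.Agent.LT.T1.H793

/-- **T1.10** `LeafIwasawaFin`. -/
theorem leafIwasawaFin793 (K : Type) [Field K] [NumberField K] : LeafIwasawaFin K := by
  intro v g
  obtain ⟨b, k, hg, hb, hk, hk'⟩ := iwasawaVal793 (v.adicCompletionIntegers K) g
  exact ⟨b, k, hb, hk, hk', hg⟩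

/-- **T1.11** `LeafIwasawaInf`: Gram–Schmidt on the bottom row, real matrices stay real. -/
theorem leafIwasawaInf793 : LeafIwasawaInf := by
  intro g
  set c := (g : Matrix (Fin 2) (Fin 2) ℂ) 1 0 with hc0
  set d := (g : Matrix (Fin 2) (Fin 2) ℂ) 1 1 with hd
  have hpos : 0 < Complex.normSq c + Complex.normSq d := by
    rcases bottom_ne_zero793 g with h | h
    · have : 0 < Complex.normSq c := Complex.normSq_pos.mpr h
      linarith [Complex.normSq_nonneg d]
    · have : 0 < Complex.normSq d := Complex.normSq_pos.mpr h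
      linarith [Complex.normSq_nonneg c]
  set r := Real.sqrt (Complex.normSq c + Complex.normSq d) with hr
  have hr0 : 0 < r := Real.sqrt_pos.mpr hpos
  have hr2 : r ^ 2 = Complex.normSq c + Complex.normSq d := Real.sq_sqrt hpos.le
  have hrne : (r : ℂ) ≠ 0 := by exact_mod_cast hr0.ne'
  have hcc : c * (starRingEnd ℂ) c = (Complex.normSq c : ℂ) := Complex.mul_conj c
  have hdd : d * (starRingEnd ℂ) d = (Complex.normSq d : ℂ) := Complex.mul_conj d
  have hsum : c * (starRingEnd ℂ) c + d * (starRingEnd ℂ) d = (r : ℂ) ^ 2 := by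
    rw [hcc, hdd]; exact_mod_cast hr2.symm
  let k : GL (Fin 2) ℂ :=
    ⟨!![(starRingEnd ℂ) d / r, -(starRingEnd ℂ) c / r; c / r, d / r],
      !![d / r, (starRingEnd ℂ) c / r; -c / r, (starRingEnd ℂ) d / r],
      by
        ext i j
        fin_cases i <;> fin_cases j <;>
          simp [Matrix.mul_apply, Fin.sum_univ_two] <;> field_simp <;>
          first | ring1 | linear_combination hsum
      ,
      by
        ext i j
        fin_cases i <;> fin_cases j <;>
          simp [Matrix.mul_apply, Fin.sum_univ_two] <;> field_simp <;>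
          first | ring1 | linear_combination hsum⟩
  have hk : (k : Matrix (Fin 2) (Fin 2) ℂ)
      = !![(starRingEnd ℂ) d / r, -(starRingEnd ℂ) c / r; c / r, d / r] := rfl
  have hkinv : ((k⁻¹ : GL (Fin 2) ℂ) : Matrix (Fin 2) (Fin 2) ℂ)
      = !![d / r, (starRingEnd ℂ) c / r; -c / r, (starRingEnd ℂ) d / r] := rfl
  refine ⟨g * k⁻¹, k, ?_, ?_, by group, ?_⟩
  · rw [Units.val_mul, hkinv]
    simp only [Matrix.mul_apply, Fin.sum_univ_two, Matrix.of_apply, Matrix.cons_val',
      Matrix.cons_val_zero, Matrix.cons_val_one, Matrix.cons_val_fin_one]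
    rw [← hc0, ← hd]
    field_simp
    ring
  · rw [hk]
    ext i j
    fin_cases i <;> fin_cases j <;>
      simp [Matrix.mul_apply, Fin.sum_univ_two, Matrix.conjTranspose_apply] <;> field_simp <;>
      first | ring1 | linear_combination hsum
  · intro hreal
    have hcim : c.im = 0 := hreal 1 0
    have hdim : d.im = 0 := hreal 1 1
    have hmul : ∀ z w : ℂ, z.im = 0 → w.im = 0 → (z * w).im = 0 := by
      intro z w hz hw
      rw [Complex.mul_im, hz, hw]; ring
    have hdivr : ∀ z : ℂ, z.im = 0 → (z / (r : ℂ)).im = 0 := by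
      intro z hz
      rw [Complex.div_ofReal_im, hz, zero_div]
    have hconj : ∀ z : ℂ, z.im = 0 → ((starRingEnd ℂ) z).im = 0 := by
      intro z hz
      rw [Complex.conj_im, hz, neg_zero]
    have hneg : ∀ z : ℂ, z.im = 0 → (-z).im = 0 := by
      intro z hz
      rw [Complex.neg_im, hz, neg_zero]
    have hkinv_im : ∀ i j, (((k⁻¹ : GL (Fin 2) ℂ) : Matrix (Fin 2) (Fin 2) ℂ) i j).im = 0 := by
      intro i j
      rw [hkinv]
      fin_cases i <;> fin_cases j
      · exact hdivr _ hdim
      · exact hdivr _ (hconj _ hcim)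
      · exact hdivr _ (hneg _ hcim)
      · exact hdivr _ (hconj _ hdim)
    refine ⟨?_, ?_, ?_⟩
    · intro i j
      rw [Units.val_mul, Matrix.mul_apply, Fin.sum_univ_two, Complex.add_im,
        hmul _ _ (hreal i 0) (hkinv_im 0 j), hmul _ _ (hreal i 1) (hkinv_im 1 j), add_zero]
    · intro i j
      rw [hk]
      fin_cases i <;> fin_cases j
      · exact hdivr _ (hconj _ hdim)
      · exact hdivr _ (hneg _ (hconj _ hcim))
      · exact hdivr _ hcim
      · exact hdivr _ hdim
    · rw [hk, Matrix.det_fin_two]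
      simp only [Matrix.of_apply, Matrix.cons_val', Matrix.cons_val_zero, Matrix.cons_val_one,
        Matrix.cons_val_fin_one]
      field_simp
      linear_combination hsum

/-- **T1.12** `LeafIwasawaGlue` (the hypotheses are not needed: `iwasawaC793` is
unconditional). -/
theorem leafIwasawaGlue793 (K : Type) [Field K] [NumberField K] : LeafIwasawaGlue K :=
  fun _ _ => iwasawaC793 K

/-- **T1.13** `LeafHeight`. -/
theorem leafHeight793 (K : Type) [Field K] [NumberField K] : LeafHeight K :=
  heightC793 K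

/-- **T1.15** `LeafSiegelSep` (`IwasawaC`, `HeightC` are not needed). -/
theorem leafSiegelSep793 (K : Type) [Field K] [NumberField K] : LeafSiegelSep K :=
  fun hN _ _ => siegelSepC793 K hN

end Fermat.Agent.LT.T1.H793

end
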