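import Mathlib
import Fermat.Agent.LT.H556.A0
import Fermat.Agent.LT.H11.LC
import Fermat.Agent.LT.T1.Spec
import Fermat.Agent.LT.T1.H793.AdeleProj
import Fermat.Agent.LT.T1.H793.Height

/-!
# Row LT, tower T1 (helper793, OFF-MAIN): the standard compact subgroup `K⁰` is compact

* `isCompact_box793`     : the box `{x ∈ 𝔸_K : |x_w| ≤ 1, x_v ∈ 𝒪_v}` is compact;
* `continuous_entry793`, `continuous_entry_inv793`, `continuous_infComp793`,
  `continuous_finComp_entry793` : continuity of the coordinates of `GL₂(𝔸_K)`;
* `isClosed_stdCompact793` : `K⁰ = {k | IsStdCompact K k}` is closed in `GL₂(𝔸_K)`;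
* `isCompact_stdCompact793` : `K⁰` is compact.

Uses `LT/H11/LC.lean` of helper11 (byte-identical copy): `𝒪_v` compact, `𝔸_K` Hausdorff.
-/

set_option autoImplicit false

open IsDedekindDomain NumberField Topology
open Fermat.Agent.LT.H556.A0
open Fermat.Agent.LT.T1
open Fermat.Agent.LT.H11.LC
open scoped RestrictedProduct

noncomputable section

namespace Fermat.Agent.LT.T1.H793

variable {K : Type} [Field K] [NumberField K]

/-! ## Continuity of the coordinates -/

lemma continuous_projInf793 (w : InfinitePlace K) :
    Continuous (fun x : Adl K => x.1 w) :=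
  (continuous_apply w).comp continuous_fst

lemma continuous_projFin793 (v : HeightOneSpectrum (𝓞 K)) :
    Continuous (fun x : Adl K => x.2 v) :=
  (RestrictedProduct.continuous_eval v).comp continuous_snd

lemma continuous_entry793 (i j : Fin 2) :
    Continuous (fun g : G K => (g : Matrix (Fin 2) (Fin 2) (Adl K)) i j) := by
  have h : Continuous (fun g : G K => (g : Matrix (Fin 2) (Fin 2) (Adl K))) :=
    Units.continuous_val
  exact h.matrix_elem i j

lemma continuous_entry_inv793 (i j : Fin 2) :
    Continuous (fun g : G K => ((g⁻¹ : G K) : Matrix (Fin 2) (Fin 2) (Adl K)) i j) := by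
  have h : Continuous (fun g : G K => ((g⁻¹ : G K) : Matrix (Fin 2) (Fin 2) (Adl K))) :=
    Units.continuous_coe_inv
  exact h.matrix_elem i j

lemma continuous_finComp_entry793 (v : HeightOneSpectrum (𝓞 K)) (i j : Fin 2) :
    Continuous (fun g : G K => finComp v g i j) :=
  (continuous_projFin793 v).comp (continuous_entry793 i j)

lemma continuous_finComp_inv_entry793 (v : HeightOneSpectrum (𝓞 K)) (i j : Fin 2) :
    Continuous (fun g : G K => finComp v g⁻¹ i j) :=
  (continuous_projFin793 v).comp (continuous_entry_inv793 i j)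

lemma continuous_infComp793 (w : InfinitePlace K) :
    Continuous (fun g : G K => infComp w g) := by
  refine continuous_pi fun i => continuous_pi fun j => ?_
  exact (InfinitePlace.Completion.isometry_extensionEmbedding w).continuous.comp
    ((continuous_projInf793 w).comp (continuous_entry793 i j))

/-! ## `K⁰` is closed -/

lemma isClosed_stdCompact793 : IsClosed {k : G K | IsStdCompact K k} := by
  have hset : {k : G K | IsStdCompact K k}
      = (⋂ v : HeightOneSpectrum (𝓞 K), ⋂ i : Fin 2, ⋂ j : Fin 2,
          ({k : G K | finComp v k i j ∈ v.adicCompletionIntegers K}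
            ∩ {k : G K | finComp v k⁻¹ i j ∈ v.adicCompletionIntegers K}))
        ∩ ⋂ w : InfinitePlace K,
          ({k : G K | infComp w k * (infComp w k).conjTranspose = 1}
            ∩ {k : G K | w.IsReal → (infComp w k).det = 1}) := by
    ext k
    simp only [Set.mem_inter_iff, Set.mem_iInter]
    show IsStdCompact K k ↔ _
    unfold IsStdCompact IsIntegralAt
    constructor
    · rintro ⟨h1, h2⟩
      exact ⟨fun v i j => ⟨(h1 v).1 i j, (h1 v).2 i j⟩, h2⟩
    · rintro ⟨h1, h2⟩
      exact ⟨fun v => ⟨fun i j => (h1 v i j).1, fun i j => (h1 v i j).2⟩, h2⟩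
  rw [hset]
  refine IsClosed.inter ?_ ?_
  · refine isClosed_iInter fun v => isClosed_iInter fun i => isClosed_iInter fun j => ?_
    have hO : IsClosed (v.adicCompletionIntegers K : Set (v.adicCompletion K)) :=
      Valued.isClosed_valuationSubring _
    exact (hO.preimage (continuous_finComp_entry793 v i j)).inter
      (hO.preimage (continuous_finComp_inv_entry793 v i j))
  · refine isClosed_iInter fun w => IsClosed.inter ?_ ?_
    · have hc := continuous_infComp793 (K := K) w
      exact isClosed_eq (hc.matrix_mul hc.matrix_conjTranspose) continuous_const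
    · by_cases hw : w.IsReal
      · have : {k : G K | w.IsReal → (infComp w k).det = 1}
            = {k : G K | (infComp w k).det = 1} := by
          ext k; simp [hw]
        rw [this]
        exact isClosed_eq (continuous_infComp793 (K := K) w).matrix_det continuous_const
      · have : {k : G K | w.IsReal → (infComp w k).det = 1} = Set.univ := by
          ext k; simp [hw]
        rw [this]
        exact isClosed_univ

/-! ## The compact box -/

/-- The box `{x ∈ 𝔸_K : |x_w| ≤ 1 for all w ∣ ∞, x_v ∈ 𝒪_v for all v}`. -/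
def box793 (K : Type) [Field K] [NumberField K] : Set (Adl K) :=
  {x | (∀ w : InfinitePlace K, ‖x.1 w‖ ≤ 1) ∧
    ∀ v : HeightOneSpectrum (𝓞 K), x.2 v ∈ v.adicCompletionIntegers K}

omit [NumberField K] in
lemma isCompact_unitBall_inf793 (w : InfinitePlace K) :
    IsCompact {x : w.Completion | ‖x‖ ≤ 1} := by
  have hemb : IsClosedEmbedding (InfinitePlace.Completion.extensionEmbedding w) :=
    (InfinitePlace.Completion.isometry_extensionEmbedding w).isClosedEmbedding
  have hc : IsCompact (Metric.closedBall (0 : ℂ) 1) := isCompact_closedBall 0 1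
  have := hemb.isCompact_preimage hc
  have hset : (InfinitePlace.Completion.extensionEmbedding w) ⁻¹' Metric.closedBall (0 : ℂ) 1
      = {x : w.Completion | ‖x‖ ≤ 1} := by
    ext x
    simp only [Set.mem_preimage, Metric.mem_closedBall, dist_zero_right]
    rw [norm_extensionEmbedding793]
    exact Iff.rfl
  rwa [hset] at this

omit [NumberField K] in
lemma isCompact_boxInf793 :
    IsCompact {x : InfiniteAdeleRing K | ∀ w : InfinitePlace K, ‖x w‖ ≤ 1} := by
  have h := isCompact_univ_pi (fun w : InfinitePlace K => isCompact_unitBall_inf793 w)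
  have hset : (Set.univ.pi fun w : InfinitePlace K => {x : w.Completion | ‖x‖ ≤ 1})
      = {x : InfiniteAdeleRing K | ∀ w : InfinitePlace K, ‖x w‖ ≤ 1} := by
    ext x
    simp only [Set.mem_pi, Set.mem_univ, true_implies]
    exact Iff.rfl
  rw [← hset]
  exact h

lemma isCompact_boxFin793 :
    IsCompact {x : FiniteAdeleRing (𝓞 K) K |
      ∀ v : HeightOneSpectrum (𝓞 K), x v ∈ v.adicCompletionIntegers K} := by
  have : ∀ v : HeightOneSpectrum (𝓞 K),
      CompactSpace ((v.adicCompletionIntegers K : Set (v.adicCompletion K))) :=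
    fun v => isCompact_iff_compactSpace.mp (isCompact_integers_h11 K v)
  have hcont : Continuous (RestrictedProduct.structureMap
      (fun v : HeightOneSpectrum (𝓞 K) => v.adicCompletion K)
      (fun v : HeightOneSpectrum (𝓞 K) =>
        (v.adicCompletionIntegers K : Set (v.adicCompletion K))) Filter.cofinite) :=
    RestrictedProduct.isEmbedding_structureMap.continuous
  have h := isCompact_range hcont
  rw [RestrictedProduct.range_structureMap] at h
  exact h

lemma isCompact_box793 : IsCompact (box793 K) := by
  have h := (isCompact_boxInf793 (K := K)).prod (isCompact_boxFin793 (K := K))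
  have hset : box793 K
      = ({x : InfiniteAdeleRing K | ∀ w : InfinitePlace K, ‖x w‖ ≤ 1} ×ˢ
          {x : FiniteAdeleRing (𝓞 K) K |
            ∀ v : HeightOneSpectrum (𝓞 K), x v ∈ v.adicCompletionIntegers K} :
          Set (InfiniteAdeleRing K × FiniteAdeleRing (𝓞 K) K)) := by
    ext x
    rfl
  rw [hset]
  exact h

/-- The matrices with all entries in the box. -/
def matBox793 (K : Type) [Field K] [NumberField K] : Set (Matrix (Fin 2) (Fin 2) (Adl K)) :=
  {M | ∀ i j, M i j ∈ box793 K}

lemma isCompact_matBox793 : IsCompact (matBox793 K) := by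
  have h : IsCompact (Set.univ.pi fun _ : Fin 2 => Set.univ.pi fun _ : Fin 2 => box793 K) :=
    isCompact_univ_pi fun _ => isCompact_univ_pi fun _ => isCompact_box793
  have hset : (Set.univ.pi fun _ : Fin 2 => Set.univ.pi fun _ : Fin 2 => box793 K)
      = matBox793 K := by
    ext M
    simp only [Set.mem_pi, Set.mem_univ, true_implies]
    exact Iff.rfl
  rw [← hset]
  exact h

/-! ## Entries of `K⁰` lie in the box -/

lemma norm_entry_inf_le_one793 {u : G K} (hk : IsStdCompact K u) (w : InfinitePlace K)
    (i j : Fin 2) : ‖((u : Matrix (Fin 2) (Fin 2) (Adl K)) i j).1 w‖ ≤ 1 := by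
  rw [← norm_extensionEmbedding793]
  have hU := (hk.2 w).1
  have e := congrFun (congrFun hU i) i
  rw [Matrix.mul_apply, Fin.sum_univ_two] at e
  simp only [Matrix.conjTranspose_apply, Matrix.one_apply_eq] at e
  have h0 : ∀ l : Fin 2, infComp w u i l * star (infComp w u i l)
      = ((‖infComp w u i l‖ ^ 2 : ℝ) : ℂ) := by
    intro l
    rw [Complex.star_def, Complex.mul_conj, Complex.normSq_eq_norm_sq]
  rw [h0 0, h0 1] at e
  have e' : ‖infComp w u i 0‖ ^ 2 + ‖infComp w u i 1‖ ^ 2 = 1 := by exact_mod_cast e
  have hij : ‖infComp w u i j‖ ^ 2 ≤ 1 := by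
    fin_cases j
    · have := sq_nonneg ‖infComp w u i 1‖
      simp only [Fin.zero_eta]
      linarith
    · have := sq_nonneg ‖infComp w u i 0‖
      simp only [Fin.mk_one]
      linarith
  have hn : 0 ≤ ‖infComp w u i j‖ := norm_nonneg _
  show ‖infComp w u i j‖ ≤ 1
  nlinarith

lemma stdCompact_mem_matBox793 {u : G K} (hk : IsStdCompact K u) :
    (u : Matrix (Fin 2) (Fin 2) (Adl K)) ∈ matBox793 K :=
  fun i j => ⟨fun w => norm_entry_inf_le_one793 hk w i j, fun v => (hk.1 v).1 i j⟩

/-! ## `K⁰` is compact -/

/-- **The standard compact subgroup `K⁰` of `GL₂(𝔸_K)` is compact.** -/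
theorem isCompact_stdCompact793 (K : Type) [Field K] [NumberField K] :
    IsCompact {k : G K | IsStdCompact K k} := by
  have : T2Space (Adl K) := t2Space_adeleRing_h11 K
  have : T2Space (Matrix (Fin 2) (Fin 2) (Adl K)) := t2Space_matrix_h11 (Fin 2) (Adl K)
  have hemb : IsClosedEmbedding (Units.embedProduct (Matrix (Fin 2) (Fin 2) (Adl K))) :=
    Units.isClosedEmbedding_embedProduct
  have hC : IsCompact ((matBox793 K) ×ˢ (MulOpposite.unop ⁻¹' (matBox793 K)) :
      Set (Matrix (Fin 2) (Fin 2) (Adl K) × (Matrix (Fin 2) (Fin 2) (Adl K))ᵐᵒᵖ)) := by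
    refine isCompact_matBox793.prod ?_
    have : MulOpposite.unop ⁻¹' (matBox793 K)
        = MulOpposite.opHomeomorph '' (matBox793 K) := by
      ext x
      constructor
      · intro hx
        exact ⟨MulOpposite.unop x, hx, rfl⟩
      · rintro ⟨y, hy, rfl⟩
        exact hy
    rw [this]
    exact isCompact_matBox793.image MulOpposite.opHomeomorph.continuous
  have hpre := hemb.isCompact_preimage hC
  refine hpre.of_isClosed_subset isClosed_stdCompact793 ?_
  intro k hk
  exact ⟨stdCompact_mem_matBox793 hk, stdCompact_mem_matBox793 (isStdCompact_inv793 hk)⟩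

end Fermat.Agent.LT.T1.H793

end
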